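import Mathlib

/-!
# PROJECT G (S13): end interface of the complex-uniformisation block

Definitions only (plus trivial API).  For a Weierstrass curve `W` over a field `F`:

* `xc W` : the `x`-coordinate of an affine point (junk value `0` at the origin);
* `TorsionCard W n` : the `n`-torsion of `W(F)` has exactly `n ^ 2` elements;
* `ValSum W p` : for every root `e` of the `2`-division polynomial
  `4 x³ + b₂ x² + 2 b₄ x + b₆`, the product of `(x(T) - e)²` over the nonzero `p`-torsion points
  `T` satisfies `p⁴ · 4^(p²-1) · ∏ (x(T) - e)² = (12 e² + 2 b₂ e + 2 b₄)^(p²-1)`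
  (division-free form of `∏ (x(T) - e)² = ((e - e')(e - e''))^(p²-1) / p⁴`).
-/

set_option autoImplicit false

namespace Fermat.Agent.S13.Iface

open WeierstrassCurve

variable {F : Type*} [Field F]

/-- The `x`-coordinate of an affine point, with junk value `0` at the origin. -/
def xc (W : WeierstrassCurve F) : W.toAffine.Point → F
  | .zero => 0
  | .some x _ _ => x

@[simp] theorem xc_zero (W : WeierstrassCurve F) : xc W (0 : W.toAffine.Point) = 0 := rfl

@[simp] theorem xc_some (W : WeierstrassCurve F) {x y : F} (h : W.toAffine.Nonsingular x y) :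
    xc W (Affine.Point.some x y h) = x := rfl

theorem xc_neg (W : WeierstrassCurve F) (T : W.toAffine.Point) : xc W (-T) = xc W T := by
  cases T with
  | zero => rfl
  | some x y h => rfl

variable [DecidableEq F]

/-- (T): the `n`-torsion subgroup of `W(F)` has `n ^ 2` elements. -/
def TorsionCard (W : WeierstrassCurve F) (n : ℕ) : Prop :=
  Nat.card (Submodule.torsionBy ℤ W.toAffine.Point n) = n ^ 2

/-- (VS): the product formula for `(x(T) - e)²` over the nonzero `p`-torsion points, `e` a root of
the `2`-division polynomial.  Division-free form. -/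
def ValSum (W : WeierstrassCurve F) (p : ℕ) : Prop :=
  ∀ e : F, 4 * e ^ 3 + W.b₂ * e ^ 2 + 2 * W.b₄ * e + W.b₆ = 0 →
    ∀ S : Finset W.toAffine.Point, (∀ T, T ∈ S ↔ p • T = 0 ∧ T ≠ 0) →
      (p : F) ^ 4 * 4 ^ (p ^ 2 - 1) * ∏ T ∈ S, (xc W T - e) ^ 2 =
        (12 * e ^ 2 + 2 * W.b₂ * e + 2 * W.b₄) ^ (p ^ 2 - 1)

theorem torsionCard_iff (W : WeierstrassCurve F) (n : ℕ) :
    TorsionCard W n ↔ Nat.card (Submodule.torsionBy ℤ W.toAffine.Point n) = n ^ 2 := Iff.rfl

/-- Membership in the `n`-torsion as an `ℕ`-multiple. -/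
theorem mem_torsionBy_iff_nsmul (W : WeierstrassCurve F) (n : ℕ) (T : W.toAffine.Point) :
    T ∈ Submodule.torsionBy ℤ W.toAffine.Point n ↔ n • T = 0 := by
  rw [Submodule.mem_torsionBy_iff, natCast_zsmul]

/-- (T) makes the torsion finite. -/
theorem TorsionCard.finite {W : WeierstrassCurve F} {n : ℕ} (h : TorsionCard W n) (hn : 0 < n) :
    Finite (Submodule.torsionBy ℤ W.toAffine.Point n) := by
  apply Nat.finite_of_card_ne_zero
  rw [h]
  exact pow_ne_zero 2 hn.ne'

end Fermat.Agent.S13.Iface
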