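/-
PROJECT G (S13), slice (M) MINKOWSKI (helper19).

In the prelude's vocabulary (`ValuationSubring.LiesOverPrime`, `ValuationSubring.inertiaSubgroupIn`):
a normal subgroup of `Gal(ℚ̄/ℚ)` which contains the fixing subgroup of some number field and the
inertia group of every valuation subring of `ℚ̄` over every prime is the whole group.

* `eq_bot_of_isUnramifiedOutside_empty` : a number field inside `ℚ̄` unramified everywhere is `ℚ`;
* `eq_top_of_inertia_le`                : the subgroup form (M);
* `mem_of_inertia_le`                   : pointwise form.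
-/
import Fermat.Agent.CFT.C7.UnramDict

set_option autoImplicit false

open NumberField

namespace Fermat.Agent.S13.Minkowski

local notation "Qbar" => AlgebraicClosure ℚ

/-- **Minkowski**, prelude form: a number field inside `ℚ̄` all of whose inertia groups
(at every valuation subring of `ℚ̄` over every prime) act trivially is `ℚ`. -/
theorem eq_bot_of_isUnramifiedOutside_empty (F : IntermediateField ℚ Qbar)
    (hF : F.IsUnramifiedOutside ∅) : F = ⊥ := by
  have : FiniteDimensional ℚ F := hF.1
  have : NumberField F := { to_finiteDimensional := hF.1 }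
  by_contra hne
  have hfr : 1 < Module.finrank ℚ F := by
    have hpos : 0 < Module.finrank ℚ F := Module.finrank_pos
    have h1 : Module.finrank ℚ F ≠ 1 := by
      intro h
      exact hne (IntermediateField.finrank_eq_one_iff.mp h)
    omega
  have h2 : 2 < |discr F| := NumberField.abs_discr_gt_two hfr
  have hne1 : (discr F).natAbs ≠ 1 := by
    intro h
    have : |discr F| = 1 := by
      rw [Int.abs_eq_natAbs, h]; rfl
    omega
  obtain ⟨q, hq, hqd⟩ := Nat.exists_prime_and_dvd hne1
  have hdvd : ((q : ℕ) : ℤ) ∣ discr F := Int.natCast_dvd.mpr hqd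
  exact Fermat.Agent.CFT.C7.UnramDict.not_dvd_discr F hF (⟨q, hq⟩ : Nat.Primes)
    (Finset.notMem_empty _) hdvd

/-- **(M)** A normal subgroup of `Gal(ℚ̄/ℚ)` containing the fixing subgroup of a number field and
all inertia subgroups is everything. -/
theorem eq_top_of_inertia_le (H : Subgroup (Qbar ≃ₐ[ℚ] Qbar))
    (K : IntermediateField ℚ Qbar) [FiniteDimensional ℚ K] (hK : K.fixingSubgroup ≤ H)
    (hI : ∀ l : ℕ, l.Prime → ∀ A : ValuationSubring Qbar, A.LiesOverPrime l →
      A.inertiaSubgroupIn ℚ ≤ H) : H = ⊤ := by
  -- the fixed field of `H`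
  set L : IntermediateField ℚ Qbar := IntermediateField.fixedField H with hL
  have hLK : L ≤ K := by
    have h1 : IntermediateField.fixedField H ≤ IntermediateField.fixedField K.fixingSubgroup :=
      IntermediateField.fixedField_antitone hK
    rwa [InfiniteGalois.fixedField_fixingSubgroup] at h1
  have hHL : H ≤ L.fixingSubgroup := (IntermediateField.le_iff_le H L).mp le_rfl
  have hLfin : FiniteDimensional ℚ L :=
    FiniteDimensional.of_injective (IntermediateField.inclusion hLK).toLinearMap
      (IntermediateField.inclusion_injective hLK)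
  have hLunr : L.IsUnramifiedOutside ∅ :=
    ⟨hLfin, fun q _ A hA => (hI q q.2 A hA).trans hHL⟩
  have hLbot : L = ⊥ := eq_bot_of_isUnramifiedOutside_empty L hLunr
  -- `H` is open, hence closed
  have hopen : IsOpen (H : Set (Qbar ≃ₐ[ℚ] Qbar)) :=
    Subgroup.isOpen_mono hK (IntermediateField.fixingSubgroup_isOpen K)
  have hclosed : IsClosed (H : Set (Qbar ≃ₐ[ℚ] Qbar)) := Subgroup.isClosed_of_isOpen H hopen
  have h3 := InfiniteGalois.fixingSubgroup_fixedField (k := ℚ) (K := Qbar) ⟨H, hclosed⟩
  have h4 : (IntermediateField.fixedField H).fixingSubgroup = H := h3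
  rw [← h4, ← hL, hLbot]
  exact IntermediateField.fixingSubgroup_bot

/-- Pointwise form of **(M)**. -/
theorem mem_of_inertia_le (H : Subgroup (Qbar ≃ₐ[ℚ] Qbar))
    (K : IntermediateField ℚ Qbar) [FiniteDimensional ℚ K] (hK : K.fixingSubgroup ≤ H)
    (hI : ∀ l : ℕ, l.Prime → ∀ A : ValuationSubring Qbar, A.LiesOverPrime l →
      A.inertiaSubgroupIn ℚ ≤ H) (σ : Qbar ≃ₐ[ℚ] Qbar) : σ ∈ H := by
  rw [eq_top_of_inertia_le H K hK hI]
  exact Subgroup.mem_top σ

end Fermat.Agent.S13.Minkowski
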