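/-
PROJECT G (S13), slice G-TOP-GLUE (helper19).

From the local statements at `2`, at `p` and at the other primes to the frozen conclusion
`HasGaloisStableCofixedLine`: the global step is Minkowski's theorem (`S13/Minkowski.lean`).

Generic in `W : WeierstrassCurve ℚ` and `n`; `Tors W n` is the `n`-torsion of `W(ℚ̄)`.

* `fixer N`, `cofixer N`            : the subgroups of `Gal(ℚ̄/ℚ)` acting trivially on `N`, resp. on
                                      the quotient by `N`;
* `exists_finite_fixing`            : a number field whose fixing subgroup acts trivially on the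
                                      (finite) torsion module;
* `inertia_le_of_conj`              : one valuation subring over `p` decides for all of them;
* `hasCofixedLine_of_local`         : the global step;
* `exists_stable_of_not_irreducible`: unfolding of `¬ GaloisRepIsIrreducible`.
-/
import Fermat.Agent.S13.Minkowski
import Fermat.Agent.CFT.Bridge.Inertia
import Fermat.Agent.CFT.LocalBridge.Conjugacy
import Fermat.Prelude.Def_FLTPrelim_CofixedLine
import Fermat.Prelude.Def_FLTPrelim_Ramification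

set_option autoImplicit false

open WeierstrassCurve WeierstrassCurve.Affine WeierstrassCurve.Affine.Point
open scoped Pointwise

namespace Fermat.Agent.S13.Global

local notation "Qbar" => AlgebraicClosure ℚ
local notation "GQ" => (AlgebraicClosure ℚ ≃ₐ[ℚ] AlgebraicClosure ℚ)

/-- The `n`-torsion of `W(ℚ̄)` with its Galois action (prelude spelling). -/
abbrev Tors (W : Affine ℚ) (n : ℕ) : Type :=
  Submodule.torsionBy ℤ (W⁄(AlgebraicClosure ℚ)).Point n

variable {W : Affine ℚ} {n : ℕ}

/-- The subgroup of `Gal(ℚ̄/ℚ)` fixing `N` pointwise. -/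
def fixer (N : Submodule (ZMod n) (Tors W n)) : Subgroup GQ where
  carrier := {σ | ∀ x ∈ N, σ • x = x}
  one_mem' := fun x _ => one_smul _ x
  mul_mem' := fun {σ τ} hσ hτ x hx => by rw [mul_smul, hτ x hx, hσ x hx]
  inv_mem' := fun {σ} hσ x hx => by
    rw [inv_smul_eq_iff]
    exact (hσ x hx).symm

theorem mem_fixer_iff (N : Submodule (ZMod n) (Tors W n)) (σ : GQ) :
    σ ∈ fixer N ↔ ∀ x ∈ N, σ • x = x := Iff.rfl

/-- The subgroup of `Gal(ℚ̄/ℚ)` acting trivially on the quotient by `N`. -/
def cofixer (N : Submodule (ZMod n) (Tors W n)) : Subgroup GQ where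
  carrier := {σ | ∀ x : Tors W n, σ • x - x ∈ N}
  one_mem' := fun x => by
    rw [one_smul, sub_self]
    exact N.zero_mem
  mul_mem' := fun {σ τ} hσ hτ x => by
    have h1 : τ • x - x ∈ N := hτ x
    have h2 : σ • (τ • x - x) - (τ • x - x) ∈ N := hσ _
    have h3 : σ • x - x ∈ N := hσ x
    have h4 : (σ * τ) • x - x = (σ • (τ • x - x) - (τ • x - x)) + (τ • x - x) + (σ • x - x) := by
      rw [mul_smul, smul_sub]
      abel
    rw [h4]
    exact N.add_mem (N.add_mem h2 h1) h3
  inv_mem' := fun {σ} hσ x => by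
    have h := hσ (σ⁻¹ • x)
    rw [smul_inv_smul] at h
    have h4 : σ⁻¹ • x - x = -(x - σ⁻¹ • x) := by abel
    rw [h4]
    exact N.neg_mem h

theorem mem_cofixer_iff (N : Submodule (ZMod n) (Tors W n)) (σ : GQ) :
    σ ∈ cofixer N ↔ ∀ x : Tors W n, σ • x - x ∈ N := Iff.rfl

/-- `fixer N` is stable under conjugation when `N` is Galois stable. -/
theorem conj_mem_fixer {N : Submodule (ZMod n) (Tors W n)} (hN : IsGaloisStable ℚ N)
    {τ : GQ} (hτ : τ ∈ fixer N) (g : GQ) : g * τ * g⁻¹ ∈ fixer N := by
  intro x hx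
  have h1 : g⁻¹ • x ∈ N := hN g⁻¹ x hx
  rw [mul_smul, mul_smul, hτ _ h1, smul_inv_smul]

/-- `cofixer N` is stable under conjugation when `N` is Galois stable. -/
theorem conj_mem_cofixer {N : Submodule (ZMod n) (Tors W n)} (hN : IsGaloisStable ℚ N)
    {τ : GQ} (hτ : τ ∈ cofixer N) (g : GQ) : g * τ * g⁻¹ ∈ cofixer N := by
  intro x
  have h1 : τ • (g⁻¹ • x) - g⁻¹ • x ∈ N := hτ _
  have h2 := hN g _ h1
  have h3 : (g * τ * g⁻¹) • x - x = g • (τ • (g⁻¹ • x) - g⁻¹ • x) := by
    rw [mul_smul, mul_smul, smul_sub, smul_inv_smul]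
  rw [h3]
  exact h2

/-- An element of `Gal(ℚ̄/ℚ)` fixing both coordinates of a point fixes the point. -/
theorem smul_point_eq_of_fix (σ : GQ) (P : (W⁄(AlgebraicClosure ℚ)).Point)
    (h : ∀ x y (hxy : (W⁄(AlgebraicClosure ℚ)).Nonsingular x y), P = Point.some _ _ hxy →
      σ x = x ∧ σ y = y) : σ • P = P := by
  rcases P with _ | ⟨x, y, hxy⟩
  · rfl
  · obtain ⟨hx, hy⟩ := h x y hxy rfl
    rw [algEquiv_smul_def, Point.map_some, Point.some.injEq]
    exact ⟨hx, hy⟩

/-- The set of coordinates of a point. -/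
def coords (P : (W⁄(AlgebraicClosure ℚ)).Point) : Set Qbar :=
  {z | ∃ x y, ∃ hxy : (W⁄(AlgebraicClosure ℚ)).Nonsingular x y,
    P = Point.some _ _ hxy ∧ (z = x ∨ z = y)}

theorem finite_coords (P : (W⁄(AlgebraicClosure ℚ)).Point) : (coords P).Finite := by
  rcases P with _ | ⟨x, y, hxy⟩
  · refine Set.Finite.subset (Set.finite_empty) ?_
    rintro z ⟨x, y, hxy, h, -⟩
    exact absurd h (by simp)
  · refine Set.Finite.subset (Set.toFinite {x, y}) ?_
    rintro z ⟨x', y', hxy', h, hz⟩
    have h' := Point.some.inj h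
    rcases hz with rfl | rfl
    · exact Or.inl h'.1.symm
    · exact Or.inr h'.2.symm

/-- If the torsion module is finite, some number field's fixing subgroup acts trivially on it. -/
theorem exists_finite_fixing (W : Affine ℚ) (n : ℕ) [Finite (Tors W n)] :
    ∃ K : IntermediateField ℚ Qbar, FiniteDimensional ℚ K ∧
      ∀ σ ∈ K.fixingSubgroup, ∀ x : Tors W n, σ • x = x := by
  classical
  set S : Set Qbar := ⋃ x : Tors W n, coords (x : (W⁄(AlgebraicClosure ℚ)).Point) with hS
  have hSfin : S.Finite := Set.finite_iUnion fun x => finite_coords _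
  have : Finite S := hSfin.to_subtype
  refine ⟨IntermediateField.adjoin ℚ S,
    IntermediateField.finiteDimensional_adjoin fun z _ =>
      Algebra.IsIntegral.isIntegral z, fun σ hσ x => ?_⟩
  apply Subtype.ext
  change σ • (x : (W⁄(AlgebraicClosure ℚ)).Point) = x
  apply smul_point_eq_of_fix
  intro a b hab hP
  have hfix : ∀ z ∈ S, σ z = z := fun z hz =>
    (IntermediateField.mem_fixingSubgroup_iff _ _).mp hσ z (IntermediateField.subset_adjoin ℚ S hz)
  constructor
  · exact hfix a (Set.mem_iUnion.mpr ⟨x, a, b, hab, hP, Or.inl rfl⟩)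
  · exact hfix b (Set.mem_iUnion.mpr ⟨x, a, b, hab, hP, Or.inr rfl⟩)

/-- One valuation subring over `p` decides for all of them: if the inertia group of `A₀` lies in
a conjugation-stable subgroup, so does the inertia group of every `A` over the same prime. -/
theorem inertia_le_of_conj {p : ℕ} (hp : p.Prime) (H : Subgroup GQ)
    (hconj : ∀ τ ∈ H, ∀ g : GQ, g * τ * g⁻¹ ∈ H)
    {A₀ A : ValuationSubring Qbar} (hA₀ : A₀.LiesOverPrime p) (hA : A.LiesOverPrime p)
    (h : A₀.inertiaSubgroupIn ℚ ≤ H) : A.inertiaSubgroupIn ℚ ≤ H := by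
  obtain ⟨σ, rfl⟩ := Fermat.Agent.CFT.LocalBridge.exists_smul_eq_of_liesOverPrime hp hA₀ hA
  intro τ hτ
  have h1 := Fermat.Agent.CFT.Bridge.Inertia.conj_mem_inertiaSubgroupIn ℚ hτ σ⁻¹
  rw [inv_smul_smul, inv_inv] at h1
  have h2 := hconj _ (h h1) σ
  have h3 : σ * (σ⁻¹ * τ * σ) * σ⁻¹ = τ := by group
  rwa [h3] at h2

/-- **Global step of S13.**  Given a Galois-stable proper nonzero submodule `N` of the finite
torsion module such that: outside `2` and `p` inertia acts trivially; at `2` inertia acts trivially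
on `N` and on the quotient; at `p` inertia acts trivially on `N` or on the quotient; and `N` is not
pointwise fixed by the whole Galois group.  Then `N` is a cofixed line. -/
theorem hasCofixedLine_of_local {p : ℕ} (hp : p.Prime) [Finite (Tors W n)]
    (N : Submodule (ZMod n) (Tors W n)) (hN : IsGaloisStable ℚ N) (hbot : N ≠ ⊥) (htop : N ≠ ⊤)
    (hodd : ∀ l : ℕ, l.Prime → l ≠ 2 → l ≠ p →
      GaloisRepUnramifiedAt (K := AlgebraicClosure ℚ) ℚ W n l)
    (h2 : ∀ A : ValuationSubring Qbar, A.LiesOverPrime 2 →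
      A.inertiaSubgroupIn ℚ ≤ fixer N ⊓ cofixer N)
    (hpA : ∀ A : ValuationSubring Qbar, A.LiesOverPrime p →
      A.inertiaSubgroupIn ℚ ≤ fixer N ∨ A.inertiaSubgroupIn ℚ ≤ cofixer N)
    (hR : ¬ ∀ σ : GQ, ∀ x ∈ N, σ • x = x) :
    HasGaloisStableCofixedLine (K := AlgebraicClosure ℚ) ℚ W n := by
  obtain ⟨K, hKfin, hK⟩ := exists_finite_fixing W n
  have hKf : K.fixingSubgroup ≤ fixer N := fun σ hσ x _ => hK σ hσ x
  have hKc : K.fixingSubgroup ≤ cofixer N := fun σ hσ x => by
    rw [hK σ hσ x, sub_self]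
    exact N.zero_mem
  have hoddf : ∀ l : ℕ, l.Prime → l ≠ 2 → l ≠ p → ∀ A : ValuationSubring Qbar,
      A.LiesOverPrime l → A.inertiaSubgroupIn ℚ ≤ fixer N ⊓ cofixer N := by
    intro l hl hl2 hlp A hA σ hσ
    have h := hodd l hl hl2 hlp A hA σ hσ
    refine ⟨fun x _ => h x, fun x => ?_⟩
    rw [h x, sub_self]
    exact N.zero_mem
  have : Fact p.Prime := ⟨hp⟩
  have hA₀ : (padicPlace p).LiesOverPrime p :=
    Fermat.Agent.CFT.LocalBridge.liesOverPrime_padicPlace p
  rcases hpA _ hA₀ with h | h
  · -- all inertia groups fix `N` pointwise: impossible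
    exfalso
    apply hR
    have htop' : fixer N = ⊤ := by
      refine Minkowski.eq_top_of_inertia_le (fixer N) K hKf fun l hl A hA => ?_
      by_cases hlp : l = p
      · subst hlp
        exact inertia_le_of_conj hp (fixer N) (fun τ hτ g => conj_mem_fixer hN hτ g) hA₀ hA h
      by_cases hl2 : l = 2
      · subst hl2
        exact (h2 A hA).trans inf_le_left
      · exact (hoddf l hl hl2 hlp A hA).trans inf_le_left
    intro σ x hx
    have : σ ∈ fixer N := htop' ▸ Subgroup.mem_top σ
    exact this x hx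
  · -- all inertia groups act trivially on the quotient: `N` is a cofixed line
    have htop' : cofixer N = ⊤ := by
      refine Minkowski.eq_top_of_inertia_le (cofixer N) K hKc fun l hl A hA => ?_
      by_cases hlp : l = p
      · subst hlp
        exact inertia_le_of_conj hp (cofixer N) (fun τ hτ g => conj_mem_cofixer hN hτ g) hA₀ hA h
      by_cases hl2 : l = 2
      · subst hl2
        exact (h2 A hA).trans inf_le_right
      · exact (hoddf l hl hl2 hlp A hA).trans inf_le_right
    refine ⟨N, hN, hbot, htop, fun σ x => ?_⟩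
    have : σ ∈ cofixer N := htop' ▸ Subgroup.mem_top σ
    exact this x

/-- Unfolding of reducibility: if the torsion module is nontrivial and the representation is not
irreducible, there is a Galois-stable proper nonzero submodule. -/
theorem exists_stable_of_not_irreducible [Nontrivial (Tors W n)]
    (hred : ¬ GaloisRepIsIrreducible (K := AlgebraicClosure ℚ) ℚ W n) :
    ∃ N : Submodule (ZMod n) (Tors W n), IsGaloisStable ℚ N ∧ N ≠ ⊥ ∧ N ≠ ⊤ := by
  by_contra hcon
  apply hred
  refine ⟨inferInstance, fun N hN => ?_⟩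
  by_contra h
  push Not at h
  exact hcon ⟨N, hN, h.1, h.2⟩

end Fermat.Agent.S13.Global
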