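/-
PROJECT G (S13), helper19: linear algebra on the torsion module `V` (`Nat.card V = p ^ 2`) and a
Galois-stable proper nonzero submodule `N` (a line), feeding the hypotheses of
`Global.hasCofixedLine_of_local`.

* `card_eq_of_ne_bot_of_ne_top`  : `Nat.card N = p`;
* `eq_zero_of_comp_self`         : an additive endomorphism `g` of a group of prime order with
                                   `g ∘ g = 0` is `0`;
* `mem_fixer_inf_cofixer_of_unipotent` : `σ` with `(σ - 1)(V) ⊆ V₀` and `σ = 1` on `V₀` lies in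
                                   `fixer N ⊓ cofixer N`   (the shape of (L-2));
* `le_fixer_or_le_cofixer_of_line` : a subgroup `I` with `(σ - 1)(V) ⊆ V₁` for all `σ ∈ I`, `V₁` a
                                   line, lies in `fixer N` or in `cofixer N`   (the shape of (L-p)).
-/
import Fermat.Agent.S13.Global

set_option autoImplicit false

open WeierstrassCurve WeierstrassCurve.Affine WeierstrassCurve.Affine.Point

namespace Fermat.Agent.S13.LineAlgebra

open Fermat.Agent.S13.Global

local notation "GQ" => (AlgebraicClosure ℚ ≃ₐ[ℚ] AlgebraicClosure ℚ)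

/-- An additive endomorphism of a group of prime order whose square is zero is zero. -/
theorem eq_zero_of_comp_self {G : Type*} [AddCommGroup G] {p : ℕ} [hp : Fact p.Prime]
    (hG : Nat.card G = p) (g : G →+ G) (hg : ∀ x, g (g x) = 0) (x : G) : g x = 0 := by
  have : Fact (Nat.card G).Prime := ⟨hG ▸ hp.out⟩
  rcases AddSubgroup.eq_bot_or_eq_top_of_prime_card g.ker with h | h
  · have h1 : g x ∈ g.ker := hg x
    rw [h, AddSubgroup.mem_bot] at h1
    exact h1
  · have h1 : x ∈ g.ker := h ▸ AddSubgroup.mem_top x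
    exact h1

section

variable {V : Type*} [AddCommGroup V] {p : ℕ} [hp : Fact p.Prime] [Module (ZMod p) V]

/-- A proper nonzero submodule of a module of cardinality `p ^ 2` has cardinality `p`. -/
theorem card_eq_of_ne_bot_of_ne_top (hV : Nat.card V = p ^ 2) (N : Submodule (ZMod p) V)
    (hbot : N ≠ ⊥) (htop : N ≠ ⊤) : Nat.card N = p := by
  have hfin : Finite V := Nat.finite_of_card_ne_zero (by rw [hV]; exact pow_ne_zero _ hp.out.ne_zero)
  have hdvd : Nat.card N ∣ p ^ 2 := by
    rw [← hV]
    exact AddSubgroup.card_addSubgroup_dvd_card N.toAddSubgroup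
  obtain ⟨k, hk, hkc⟩ := (Nat.dvd_prime_pow hp.out).mp hdvd
  interval_cases k
  · exfalso
    apply hbot
    rw [pow_zero] at hkc
    have : Subsingleton N := (Nat.card_eq_one_iff_unique.mp hkc).1
    exact (Submodule.eq_bot_iff N).mpr fun x hx => by
      have := Subsingleton.elim (⟨x, hx⟩ : N) 0
      exact congrArg Subtype.val this
  · simpa using hkc
  · exfalso
    apply htop
    have h1 : Nat.card N = Nat.card V := by rw [hkc, hV]
    have h2 : N.toAddSubgroup = ⊤ := AddSubgroup.eq_top_of_card_eq _ h1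
    exact Submodule.toAddSubgroup_injective (by rw [h2]; rfl)

/-- The quotient by a proper nonzero submodule of a module of cardinality `p ^ 2` has
cardinality `p`. -/
theorem card_quotient_eq (hV : Nat.card V = p ^ 2) (N : Submodule (ZMod p) V)
    (hbot : N ≠ ⊥) (htop : N ≠ ⊤) : Nat.card (V ⧸ N) = p := by
  have h1 := Submodule.card_eq_card_quotient_mul_card N
  rw [hV, card_eq_of_ne_bot_of_ne_top hV N hbot htop, pow_two] at h1
  exact (Nat.eq_of_mul_eq_mul_left hp.out.pos h1).symm

/-- **Unipotent ⇒ trivial on a stable line and on its quotient.** -/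
theorem fix_and_cofix_of_unipotent (hV : Nat.card V = p ^ 2) (N : Submodule (ZMod p) V)
    (hbot : N ≠ ⊥) (htop : N ≠ ⊤) (f : V →+ V) (hfN : ∀ x ∈ N, f x ∈ N)
    (hf : ∀ x, f (f x - x) = f x - x) : (∀ x ∈ N, f x = x) ∧ ∀ x, f x - x ∈ N := by
  have hcN := card_eq_of_ne_bot_of_ne_top hV N hbot htop
  have hcQ := card_quotient_eq hV N hbot htop
  -- on `N`
  let g : N →+ N :=
    { toFun := fun x => ⟨f x - x, N.sub_mem (hfN x x.2) x.2⟩
      map_zero' := by ext; simp
      map_add' := fun x y => by ext; simp [map_add]; abel }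
  have hg : ∀ x, g (g x) = 0 := fun x => by
    ext
    change f (f x - x) - (f x - x) = 0
    rw [hf, sub_self]
  have h1 : ∀ x ∈ N, f x = x := fun x hx => by
    have := eq_zero_of_comp_self hcN g hg ⟨x, hx⟩
    have h2 : f x - x = 0 := congrArg Subtype.val this
    exact sub_eq_zero.mp h2
  refine ⟨h1, ?_⟩
  -- on `V ⧸ N`
  let k : V →+ V := f - AddMonoidHom.id V
  have hk : ∀ x, k x = f x - x := fun x => rfl
  have hkN : N.toAddSubgroup ≤ (N.toAddSubgroup).comap k := fun x hx => by
    change k x ∈ N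
    rw [hk, h1 x hx, sub_self]
    exact N.zero_mem
  let kq : V ⧸ N.toAddSubgroup →+ V ⧸ N.toAddSubgroup := QuotientAddGroup.map _ _ k hkN
  have hkq : ∀ y, kq (kq y) = 0 := fun y => by
    induction y using QuotientAddGroup.induction_on with
    | H x =>
      change ((k (k x) : V) : V ⧸ N.toAddSubgroup) = 0
      have : k (k x) = 0 := by rw [hk, hk, hf, sub_self]
      rw [this]
      rfl
  have hcQ' : Nat.card (V ⧸ N.toAddSubgroup) = p := hcQ
  intro x
  have h3 := eq_zero_of_comp_self hcQ' kq hkq (x : V ⧸ N.toAddSubgroup)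
  have h4 : ((k x : V) : V ⧸ N.toAddSubgroup) = 0 := h3
  rw [QuotientAddGroup.eq_zero_iff] at h4
  exact h4

end

section Tors

variable {W : Affine ℚ} {p : ℕ} [hp : Fact p.Prime]

/-- The additive map underlying the action of `σ` on the torsion module. -/
noncomputable def act (σ : GQ) : Tors W p →+ Tors W p :=
  DistribSMul.toAddMonoidHom (Tors W p) σ

@[simp] theorem act_apply (σ : GQ) (x : Tors W p) : act σ x = σ • x := rfl

/-- **Shape of (L-2).** If `(σ - 1)` maps the torsion module into a subgroup `V₀` on which `σ` is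
the identity, then `σ` fixes every Galois-stable line pointwise and acts trivially on its
quotient. -/
theorem mem_fixer_inf_cofixer_of_unipotent (hV : Nat.card (Tors W p) = p ^ 2)
    (N : Submodule (ZMod p) (Tors W p)) (hN : IsGaloisStable ℚ N) (hbot : N ≠ ⊥) (htop : N ≠ ⊤)
    (σ : GQ) (V₀ : AddSubgroup (Tors W p)) (h1 : ∀ x, σ • x - x ∈ V₀)
    (h2 : ∀ x ∈ V₀, σ • x = x) : σ ∈ fixer N ⊓ cofixer N := by
  have h := fix_and_cofix_of_unipotent hV N hbot htop (act σ) (fun x hx => hN σ x hx)
    (fun x => h2 _ (h1 x))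
  exact ⟨h.1, h.2⟩

/-- **Shape of (L-p).** If every `σ ∈ I` maps `(σ - 1)(V)` into a line `V₁`, then `I` fixes `N`
pointwise (`N ≠ V₁`) or acts trivially on the quotient by `N` (`N = V₁`). -/
theorem le_fixer_or_le_cofixer_of_line (hV : Nat.card (Tors W p) = p ^ 2)
    (N : Submodule (ZMod p) (Tors W p)) (hN : IsGaloisStable ℚ N) (hbot : N ≠ ⊥) (htop : N ≠ ⊤)
    (I : Subgroup GQ) (V₁ : AddSubgroup (Tors W p)) (hV₁ : Nat.card V₁ = p)
    (h : ∀ σ ∈ I, ∀ x, σ • x - x ∈ V₁) : I ≤ fixer N ∨ I ≤ cofixer N := by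
  have hcN := card_eq_of_ne_bot_of_ne_top hV N hbot htop
  have hfin : Finite (Tors W p) :=
    Nat.finite_of_card_ne_zero (by rw [hV]; exact pow_ne_zero _ hp.out.ne_zero)
  by_cases hle : V₁ ≤ N.toAddSubgroup
  · -- `V₁ = N`
    right
    intro σ hσ x
    exact hle (h σ hσ x)
  · -- `V₁ ⊓ N = ⊥`
    left
    have hinf : V₁ ⊓ N.toAddSubgroup = ⊥ := by
      have hsub : Nat.card ↥(V₁ ⊓ N.toAddSubgroup) ∣ p := by
        have h0 : Nat.card ↥(V₁ ⊓ N.toAddSubgroup) ∣ Nat.card V₁ :=
          AddSubgroup.card_dvd_of_le inf_le_left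
        rwa [hV₁] at h0
      rcases (Nat.dvd_prime hp.out).mp hsub with h1 | h1
      · exact AddSubgroup.card_eq_one.mp h1
      · exfalso
        apply hle
        have h2 : V₁ ⊓ N.toAddSubgroup = V₁ := by
          apply AddSubgroup.eq_of_le_of_card_ge inf_le_left
          rw [h1, hV₁]
        rw [← h2]
        exact inf_le_right
    intro σ hσ x hx
    have h1 : σ • x - x ∈ V₁ := h σ hσ x
    have h2 : σ • x - x ∈ N.toAddSubgroup := N.sub_mem (hN σ x hx) hx
    have h3 : σ • x - x ∈ V₁ ⊓ N.toAddSubgroup := ⟨h1, h2⟩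
    rw [hinf, AddSubgroup.mem_bot] at h3
    exact sub_eq_zero.mp h3

end Tors

end Fermat.Agent.S13.LineAlgebra
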