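/-
PROJECT G (S13), helper19: the frozen conclusion of S13 from the four inputs
(T) `Nat.card E[p] = p ^ 2`, (L-2), (L-p), (R) for the Frey curve.
`S05.result` supplies the primes `l ≠ 2, p`.
-/
import Fermat.Agent.S13.Global
import Fermat.Agent.S05

set_option autoImplicit false

open WeierstrassCurve WeierstrassCurve.Affine WeierstrassCurve.Affine.Point

namespace Fermat.Agent.S13.FreyGlue

open Fermat.Agent.S13.Global

local notation "Qbar" => AlgebraicClosure ℚ
local notation "GQ" => (AlgebraicClosure ℚ ≃ₐ[ℚ] AlgebraicClosure ℚ)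

/-- The frozen S13 conclusion from the local inputs at `2` and `p`, the cardinality of `E[p]` and
the non-existence of a rational line. -/
theorem result_of (P : FreyPackage)
    (hcard : Nat.card (Tors P.freyCurve P.p) = P.p ^ 2)
    (hL2 : ∀ N : Submodule (ZMod P.p) (Tors P.freyCurve P.p), IsGaloisStable ℚ N → N ≠ ⊥ → N ≠ ⊤ →
      ∀ A : ValuationSubring Qbar, A.LiesOverPrime 2 →
        A.inertiaSubgroupIn ℚ ≤ fixer N ⊓ cofixer N)
    (hLp : ∀ N : Submodule (ZMod P.p) (Tors P.freyCurve P.p), IsGaloisStable ℚ N → N ≠ ⊥ → N ≠ ⊤ →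
      ∀ A : ValuationSubring Qbar, A.LiesOverPrime P.p →
        A.inertiaSubgroupIn ℚ ≤ fixer N ∨ A.inertiaSubgroupIn ℚ ≤ cofixer N)
    (hR : ∀ N : Submodule (ZMod P.p) (Tors P.freyCurve P.p), IsGaloisStable ℚ N → N ≠ ⊥ → N ≠ ⊤ →
      ¬ ∀ σ : GQ, ∀ x ∈ N, σ • x = x)
    (hred : ¬ GaloisRepIsIrreducible (K := AlgebraicClosure ℚ) ℚ P.freyCurve P.p) :
    HasGaloisStableCofixedLine (K := AlgebraicClosure ℚ) ℚ P.freyCurve P.p := by
  have hp : P.p.Prime := P.pp
  have hfin : Finite (Tors P.freyCurve P.p) :=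
    Nat.finite_of_card_ne_zero (by rw [hcard]; exact pow_ne_zero _ hp.ne_zero)
  have hnt : Nontrivial (Tors P.freyCurve P.p) := by
    apply Finite.one_lt_card_iff_nontrivial.mp
    rw [hcard]
    exact Nat.one_lt_pow (by norm_num) hp.one_lt
  obtain ⟨N, hN, hbot, htop⟩ := exists_stable_of_not_irreducible hred
  exact hasCofixedLine_of_local hp N hN hbot htop
    (fun l hl hl2 hlp => Fermat.Agent.S05.result P hl hl2 hlp)
    (hL2 N hN hbot htop) (hLp N hN hbot htop) (hR N hN hbot htop)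

end Fermat.Agent.S13.FreyGlue
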