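import Fermat.Agent.CFT.C7.UnramDict

/-!
# PROJECT G (S13), slice (ram): inertia-invariant algebraic numbers have "integral" valuation

`A` a valuation subring of `ℚ̄` over the prime `q`.

* `exists_zpow_valuation_eq_one_of_le` : if the inertia group `I_A` fixes the number field `F`
  pointwise, every nonzero `y ∈ F` becomes an `A`-unit after multiplication by a power of `q`
  (single-place version of `CFT/C7/UnramDict.exists_zpow_valuation_eq_one`);
* `exists_zpow_valuation_eq_one_of_fixed` **(R1)** : the same for a single `y ≠ 0` fixed by `I_A`;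
* `valuation_le_of_fixed` **(R2)** : if moreover `v y < 1` then `v y ≤ v q`;
* `valuation_prod_lt` **(R3)** : the abstract core of (Excl): a finite family `z i` of nonzero
  non-units, an `I_A`-stable nonempty proper subfamily `N`  ⇒  `v (∏ i, z i) < v q`.
-/

set_option autoImplicit false

open IsDedekindDomain NumberField IntermediateField

namespace Fermat.Agent.S13.InertiaInvariant

open Fermat.Agent.CFT.LocalBridge Fermat.Agent.CFT.C3.ClassGen
  Fermat.Agent.CFT.C7.KummerUnram Fermat.Agent.CFT.C7.PlaceDict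
  Fermat.Agent.CFT.Local.PadicAlgClLocal Fermat.Agent.CFT.C7.UnramDict

local notation "Qbar" => AlgebraicClosure ℚ

/-- Single-place version of `UnramDict.exists_zpow_valuation_eq_one`: if the inertia group of `A`
(over `q`) acts trivially on the number field `F`, every nonzero element of `F` becomes a unit at
`A` after multiplication by a power of `q`. -/
theorem exists_zpow_valuation_eq_one_of_le (q : ℕ) [Fact q.Prime]
    {F : IntermediateField ℚ Qbar} [FiniteDimensional ℚ F]
    {A : ValuationSubring Qbar} (hA : A.LiesOverPrime q)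
    (hI : A.inertiaSubgroupIn ℚ ≤ F.fixingSubgroup) {y : Qbar} (hy : y ∈ F) (hy0 : y ≠ 0) :
    ∃ k : ℤ, A.valuation (y * ((q : ℕ) : Qbar) ^ k) = 1 := by
  obtain ⟨σ, rfl⟩ := exists_smul_padicPlace_eq q hA
  have h1 := (inertiaSubgroupIn_smul_padicPlace_le_iff q F σ).mp hI
  have hfd : FiniteDimensional ℚ (F.map (σ⁻¹ : GlobGal).toAlgHom) :=
    (F.equivMap (σ⁻¹ : GlobGal).toAlgHom).toLinearEquiv.finiteDimensional
  have h2 := (localInertia_le_fixingSubgroup_iff_ramIdx q _).mp h1
  have hmem : padicEmbedding q ((σ⁻¹ : GlobGal) y) ∈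
      localLevel q (F.map (σ⁻¹ : GlobGal).toAlgHom) :=
    padicEmbedding_mem_localLevel q ⟨y, hy, rfl⟩
  have hne : padicEmbedding q ((σ⁻¹ : GlobGal) y) ≠ 0 := by
    rw [Ne, map_eq_zero, map_eq_zero]
    exact hy0
  obtain ⟨k, hk⟩ := (ramIdx_eq_one_iff_norm q _).mp h2 _ hmem hne
  refine ⟨k, ?_⟩
  rw [valuation_smul_eq_one_iff, valuation_padicPlace_eq_one_iff, map_mul, map_mul, norm_mul,
    map_zpow₀, map_zpow₀, norm_zpow, map_natCast, norm_padicEmbedding_natCast, hk, inv_zpow,
    mul_inv_cancel₀]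
  have hq0 : (0 : ℝ) < q := by exact_mod_cast (Fact.out : q.Prime).pos
  exact zpow_ne_zero _ hq0.ne'

/-- **(R1)** An algebraic number fixed by the inertia group of `A` (over `q`) becomes a unit at `A`
after multiplication by a power of `q`. -/
theorem exists_zpow_valuation_eq_one_of_fixed (q : ℕ) [Fact q.Prime]
    {A : ValuationSubring Qbar} (hA : A.LiesOverPrime q) {y : Qbar} (hy0 : y ≠ 0)
    (hfix : ∀ σ ∈ A.inertiaSubgroupIn ℚ, σ y = y) :
    ∃ k : ℤ, A.valuation (y * ((q : ℕ) : Qbar) ^ k) = 1 := by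
  have halg : IsIntegral ℚ y := (Algebra.IsAlgebraic.isAlgebraic (R := ℚ) y).isIntegral
  have : FiniteDimensional ℚ (ℚ⟮y⟯ : IntermediateField ℚ Qbar) :=
    IntermediateField.adjoin.finiteDimensional halg
  refine exists_zpow_valuation_eq_one_of_le q (F := ℚ⟮y⟯) hA ?_
    (IntermediateField.mem_adjoin_simple_self ℚ y) hy0
  intro σ hσ
  rw [IntermediateField.mem_fixingSubgroup_iff]
  intro x hx
  have hle : (ℚ⟮y⟯ : IntermediateField ℚ Qbar) ≤ IntermediateField.fixedField
      (Subgroup.zpowers σ) := by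
    rw [IntermediateField.adjoin_simple_le_iff]
    rintro ⟨τ, k, rfl⟩
    have h1 : σ y = y := hfix σ hσ
    have h2 : ∀ n : ℕ, (σ ^ n) y = y := by
      intro n
      induction n with
      | zero => simp
      | succ n ih => rw [pow_succ, AlgEquiv.mul_apply, h1, ih]
    have h3 : σ⁻¹ y = y := by
      have := congrArg (σ⁻¹ : Qbar ≃ₐ[ℚ] Qbar) h1
      simpa using this.symm
    have h4 : ∀ n : ℕ, ((σ⁻¹) ^ n) y = y := by
      intro n
      induction n with
      | zero => simp
      | succ n ih => rw [pow_succ, AlgEquiv.mul_apply, h3, ih]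
    show (σ ^ k) • y = y
    rcases Int.eq_nat_or_neg k with ⟨n, rfl | rfl⟩
    · rw [zpow_natCast]; exact h2 n
    · rw [zpow_neg, zpow_natCast, ← inv_pow]; exact h4 n
  exact hle hx ⟨σ, Subgroup.mem_zpowers σ⟩

/-- **(R2)** A nonzero non-unit fixed by inertia has valuation at most that of `q`. -/
theorem valuation_le_of_fixed (q : ℕ) [Fact q.Prime]
    {A : ValuationSubring Qbar} (hA : A.LiesOverPrime q) {y : Qbar} (hy0 : y ≠ 0)
    (hfix : ∀ σ ∈ A.inertiaSubgroupIn ℚ, σ y = y) (hy1 : A.valuation y < 1) :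
    A.valuation y ≤ A.valuation ((q : ℕ) : Qbar) := by
  obtain ⟨k, hk⟩ := exists_zpow_valuation_eq_one_of_fixed q hA hy0 hfix
  have hq1 : A.valuation ((q : ℕ) : Qbar) < 1 := by
    rw [ValuationSubring.LiesOverPrime, ValuationSubring.mem_nonunits_iff] at hA
    exact hA
  have hq0 : A.valuation ((q : ℕ) : Qbar) ≠ 0 := by
    rw [Ne, map_eq_zero]
    exact_mod_cast (Fact.out : q.Prime).ne_zero
  have hvy0 : A.valuation y ≠ 0 := by rwa [Ne, map_eq_zero]
  rw [map_mul, map_zpow₀] at hk
  -- `v y * v q ^ k = 1`, `v y < 1`, `v q < 1` ⇒ `k ≤ -1`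
  by_contra hlt
  rw [not_le] at hlt
  set a := A.valuation y with ha
  set b := A.valuation ((q : ℕ) : Qbar) with hb
  have hk' : k < 0 := by
    by_contra hk0
    rw [not_lt] at hk0
    have h1 : b ^ k ≤ 1 := by
      obtain ⟨n, rfl⟩ := Int.eq_ofNat_of_zero_le hk0
      rw [zpow_natCast]
      exact pow_le_one' hq1.le n
    have : a * b ^ k < 1 := by
      calc a * b ^ k ≤ a * 1 := by gcongr
        _ = a := mul_one a
        _ < 1 := hy1
    rw [hk] at this
    exact lt_irrefl _ this
  obtain ⟨n, hn⟩ : ∃ n : ℕ, k = -((n : ℤ) + 1) := ⟨(-k - 1).toNat, by omega⟩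
  rw [hn, zpow_neg] at hk
  have h2 : a = b ^ ((n : ℤ) + 1) := by
    have hbn : b ^ ((n : ℤ) + 1) ≠ 0 := zpow_ne_zero _ hq0
    field_simp at hk
    exact hk
  have h3 : b ^ ((n : ℤ) + 1) ≤ b := by
    rw [show ((n : ℤ) + 1) = ((n + 1 : ℕ) : ℤ) by push_cast; ring, zpow_natCast, pow_succ]
    calc b ^ n * b ≤ 1 * b := by
          gcongr
          exact pow_le_one' hq1.le n
      _ = b := one_mul b
  rw [h2] at hlt
  exact absurd h3 (not_le.mpr hlt)

/-- **(R3)** Abstract core of (Excl).  A finite family of nonzero non-units `z i` at `A` (over `q`),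
with a nonempty proper subfamily `N` which every inertia element permutes (compatibly with a
permutation of the whole index set): the valuation of the total product is strictly smaller than
that of `q`. -/
theorem valuation_prod_lt (q : ℕ) [Fact q.Prime] {A : ValuationSubring Qbar}
    (hA : A.LiesOverPrime q) {ι : Type*} [Fintype ι] [DecidableEq ι] (z : ι → Qbar)
    (hz0 : ∀ i, z i ≠ 0) (hz : ∀ i, A.valuation (z i) < 1) (N : Finset ι) (hN : N.Nonempty)
    (hNc : ∃ i, i ∉ N)
    (hstab : ∀ σ ∈ A.inertiaSubgroupIn ℚ, ∃ e : Equiv.Perm ι, (∀ i ∈ N, e i ∈ N) ∧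
      ∀ i, σ (z i) = z (e i)) :
    A.valuation (∏ i, z i) < A.valuation ((q : ℕ) : Qbar) := by
  classical
  set y : Qbar := ∏ i ∈ N, z i with hy
  have hy0 : y ≠ 0 := Finset.prod_ne_zero_iff.mpr fun i _ => hz0 i
  have hfix : ∀ σ ∈ A.inertiaSubgroupIn ℚ, σ y = y := by
    intro σ hσ
    obtain ⟨e, heN, he⟩ := hstab σ hσ
    rw [hy, map_prod]
    have himg : N.image e = N := by
      apply Finset.eq_of_subset_of_card_le
      · intro j hj
        obtain ⟨i, hi, rfl⟩ := Finset.mem_image.mp hj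
        exact heN i hi
      · rw [Finset.card_image_of_injective _ e.injective]
    calc ∏ i ∈ N, σ (z i) = ∏ i ∈ N, z (e i) := Finset.prod_congr rfl fun i _ => he i
      _ = ∏ j ∈ N.image e, z j := (Finset.prod_image fun a _ b _ h => e.injective h).symm
      _ = ∏ j ∈ N, z j := by rw [himg]
  have hvle : ∀ (s : Finset ι), A.valuation (∏ i ∈ s, z i) ≤ 1 := by
    intro s
    rw [map_prod]
    exact Finset.prod_le_one' fun i _ => (hz i).le
  have hvlt : ∀ (s : Finset ι), s.Nonempty → A.valuation (∏ i ∈ s, z i) < 1 := by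
    intro s hs
    obtain ⟨i, hi⟩ := hs
    rw [← Finset.mul_prod_erase s _ hi, map_mul]
    calc A.valuation (z i) * A.valuation (∏ j ∈ s.erase i, z j)
        ≤ A.valuation (z i) * 1 := by gcongr; exact hvle _
      _ = A.valuation (z i) := mul_one _
      _ < 1 := hz i
  have hy1 : A.valuation y < 1 := hvlt N hN
  have hyq := valuation_le_of_fixed q hA hy0 hfix hy1
  have hcompl : (Nᶜ : Finset ι).Nonempty := by
    obtain ⟨i, hi⟩ := hNc
    exact ⟨i, Finset.mem_compl.mpr hi⟩
  have hrest := hvlt Nᶜ hcompl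
  have hsplit : ∏ i, z i = y * ∏ i ∈ Nᶜ, z i := by
    rw [hy, Finset.prod_mul_prod_compl]
  have hvy0 : A.valuation y ≠ 0 := by rwa [Ne, map_eq_zero]
  have hvypos : 0 < A.valuation y := zero_lt_iff.mpr hvy0
  rw [hsplit, map_mul]
  calc A.valuation y * A.valuation (∏ i ∈ Nᶜ, z i)
      < A.valuation y * 1 := by
        exact mul_lt_mul_of_pos_left hrest hvypos
    _ = A.valuation y := mul_one _
    _ ≤ A.valuation ((q : ℕ) : Qbar) := hyq

end Fermat.Agent.S13.InertiaInvariant
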