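/-
PROJECT G (S13), helper19: from the three-step filtration `V ≥ V₀ ≥ V₁` of the torsion module
(`V₀ = V ∩ E₀`, `V₁ = V ∩ E₁` at a valuation subring) with inertia acting trivially on `V/V₀` and on
`V₀/V₁` to the hypotheses (L-2) and (L-p) of `Global.hasCofixedLine_of_local`;
and Galois descent of a pointwise fixed torsion point to rational coordinates (for (R)).
-/
import Fermat.Agent.S13.LineAlgebra

set_option autoImplicit false

open WeierstrassCurve WeierstrassCurve.Affine WeierstrassCurve.Affine.Point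

namespace Fermat.Agent.S13.Filtration

open Fermat.Agent.S13.Global Fermat.Agent.S13.LineAlgebra

local notation "Qbar" => AlgebraicClosure ℚ
local notation "GQ" => (AlgebraicClosure ℚ ≃ₐ[ℚ] AlgebraicClosure ℚ)

variable {W : Affine ℚ} {p : ℕ} [hp : Fact p.Prime]

/-- **(L-2) from the filtration**: `V₁ = ⊥`, inertia trivial on `V/V₀` and on `V₀/V₁`. -/
theorem le_fixer_inf_cofixer_of_filtration (hV : Nat.card (Tors W p) = p ^ 2)
    (N : Submodule (ZMod p) (Tors W p)) (hN : IsGaloisStable ℚ N) (hbot : N ≠ ⊥) (htop : N ≠ ⊤)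
    (I : Subgroup GQ) (V₀ V₁ : AddSubgroup (Tors W p))
    (hC : ∀ σ ∈ I, ∀ x, σ • x - x ∈ V₀) (hK : ∀ σ ∈ I, ∀ x ∈ V₀, σ • x - x ∈ V₁)
    (hV₁ : V₁ = ⊥) : I ≤ fixer N ⊓ cofixer N := by
  intro σ hσ
  refine mem_fixer_inf_cofixer_of_unipotent hV N hN hbot htop σ V₀ (hC σ hσ) fun x hx => ?_
  have h := hK σ hσ x hx
  rw [hV₁, AddSubgroup.mem_bot] at h
  exact sub_eq_zero.mp h

/-- **(L-p) from the filtration**: `V₁ ≠ ⊤` (by (Excl)), inertia trivial on `V/V₀` and on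
`V₀/V₁`. -/
theorem le_fixer_or_le_cofixer_of_filtration (hV : Nat.card (Tors W p) = p ^ 2)
    (N : Submodule (ZMod p) (Tors W p)) (hN : IsGaloisStable ℚ N) (hbot : N ≠ ⊥) (htop : N ≠ ⊤)
    (I : Subgroup GQ) (V₀ V₁ : AddSubgroup (Tors W p)) (h10 : V₁ ≤ V₀)
    (hC : ∀ σ ∈ I, ∀ x, σ • x - x ∈ V₀) (hK : ∀ σ ∈ I, ∀ x ∈ V₀, σ • x - x ∈ V₁)
    (hExcl : V₁ ≠ ⊤) : I ≤ fixer N ∨ I ≤ cofixer N := by
  have hfin : Finite (Tors W p) :=
    Nat.finite_of_card_ne_zero (by rw [hV]; exact pow_ne_zero _ hp.out.ne_zero)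
  have hdvd : Nat.card V₁ ∣ p ^ 2 := by
    rw [← hV]
    exact AddSubgroup.card_addSubgroup_dvd_card V₁
  obtain ⟨k, hk, hkc⟩ := (Nat.dvd_prime_pow hp.out).mp hdvd
  interval_cases k
  · -- `V₁ = ⊥`
    left
    rw [pow_zero] at hkc
    exact (le_fixer_inf_cofixer_of_filtration hV N hN hbot htop I V₀ V₁ hC hK
      (AddSubgroup.card_eq_one.mp hkc)).trans inf_le_left
  · -- `V₁` a line
    rw [pow_one] at hkc
    refine le_fixer_or_le_cofixer_of_line hV N hN hbot htop I V₁ hkc fun σ hσ x => ?_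
    have hdvd0 : Nat.card V₀ ∣ p ^ 2 := by
      rw [← hV]
      exact AddSubgroup.card_addSubgroup_dvd_card V₀
    obtain ⟨k0, hk0, hk0c⟩ := (Nat.dvd_prime_pow hp.out).mp hdvd0
    have hle : Nat.card V₁ ≤ Nat.card V₀ := Nat.le_of_dvd Nat.card_pos
      (AddSubgroup.card_dvd_of_le h10)
    interval_cases k0
    · exfalso
      rw [hkc, hk0c, pow_zero] at hle
      exact absurd hle (not_le.mpr hp.out.one_lt)
    · -- `V₀ = V₁`
      have h01 : V₁ = V₀ := AddSubgroup.eq_of_le_of_card_ge h10 (by rw [hkc, hk0c, pow_one])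
      rw [h01]
      exact hC σ hσ x
    · -- `V₀ = ⊤`
      have h0top : V₀ = ⊤ := AddSubgroup.eq_top_of_card_eq _ (by rw [hk0c, hV])
      exact hK σ hσ x (h0top ▸ AddSubgroup.mem_top x)
  · exfalso
    exact hExcl (AddSubgroup.eq_top_of_card_eq _ (by rw [hkc, hV]))

omit hp in
/-- **Galois descent for (R)**: a nonzero point of `W(ℚ̄)` fixed by the whole Galois group has
rational coordinates. -/
theorem exists_rat_coords (x : (W⁄(AlgebraicClosure ℚ)).Point) (hx : ∀ σ : GQ, σ • x = x)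
    (h0 : x ≠ 0) : ∃ (a b : ℚ)
      (h : (W⁄(AlgebraicClosure ℚ)).Nonsingular (algebraMap ℚ Qbar a) (algebraMap ℚ Qbar b)),
      x = Point.some _ _ h := by
  rcases x with _ | ⟨u, v, huv⟩
  · exact absurd rfl h0
  · have hfix : ∀ σ : GQ, σ u = u ∧ σ v = v := fun σ => by
      have h1 := hx σ
      rw [algEquiv_smul_def, Point.map_some, Point.some.injEq] at h1
      exact h1
    have : IsGalois ℚ Qbar := Fermat.Agent.CFT.LocalBridge.isGalois_algebraicClosure_rat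
    obtain ⟨a, ha⟩ := (InfiniteGalois.mem_range_algebraMap_iff_fixed (k := ℚ) (K := Qbar) u).mpr
      fun σ => (hfix σ).1
    obtain ⟨b, hb⟩ := (InfiniteGalois.mem_range_algebraMap_iff_fixed (k := ℚ) (K := Qbar) v).mpr
      fun σ => (hfix σ).2
    subst ha hb
    exact ⟨a, b, huv, rfl⟩

/-- Variant for the torsion module: a nonzero element of a pointwise fixed submodule gives a
rational point killed by `p`. -/
theorem exists_rat_point_of_fixed (N : Submodule (ZMod p) (Tors W p)) (hbot : N ≠ ⊥)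
    (hfix : ∀ σ : GQ, ∀ x ∈ N, σ • x = x) :
    ∃ (a b : ℚ)
      (h : (W⁄(AlgebraicClosure ℚ)).Nonsingular (algebraMap ℚ Qbar a) (algebraMap ℚ Qbar b)),
      (p : ℤ) • (Point.some _ _ h : (W⁄(AlgebraicClosure ℚ)).Point) = 0 ∧
      ∃ x ∈ N, (x : (W⁄(AlgebraicClosure ℚ)).Point) = Point.some _ _ h := by
  obtain ⟨x, hxN, hx0⟩ := (Submodule.ne_bot_iff N).mp hbot
  have hx0' : (x : (W⁄(AlgebraicClosure ℚ)).Point) ≠ 0 := fun h => hx0 (Subtype.ext h)
  have hfix' : ∀ σ : GQ, σ • (x : (W⁄(AlgebraicClosure ℚ)).Point) = x := fun σ =>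
    congrArg Subtype.val (hfix σ x hxN)
  obtain ⟨a, b, h, hxe⟩ := exists_rat_coords _ hfix' hx0'
  refine ⟨a, b, h, ?_, x, hxN, hxe⟩
  rw [← hxe]
  exact (Submodule.mem_torsionBy_iff _ _).mp x.2

end Fermat.Agent.S13.Filtration
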