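/-
PROJECT G (S13), helper19: the frozen conclusion of S13 from the most primitive local shapes:
filtrations `V ≥ V₀ ≥ V₁` at the places over `2` and over `p`, and the non-existence of a rational
affine point killed by `p`.
-/
import Fermat.Agent.S13.Filtration
import Fermat.Agent.S13.FreyGlue

set_option autoImplicit false

open WeierstrassCurve WeierstrassCurve.Affine WeierstrassCurve.Affine.Point

namespace Fermat.Agent.S13.RGlue

open Fermat.Agent.S13.Global Fermat.Agent.S13.Filtration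

local notation "Qbar" => AlgebraicClosure ℚ
local notation "GQ" => (AlgebraicClosure ℚ ≃ₐ[ℚ] AlgebraicClosure ℚ)

/-- **(R) in the shape of `FreyGlue.result_of`** from the non-existence of a rational affine point
killed by `p`. -/
theorem hR_of_noRat {W : Affine ℚ} {p : ℕ} [Fact p.Prime]
    (hNoRat : ∀ (a b : ℚ)
      (h : (W⁄(AlgebraicClosure ℚ)).Nonsingular (algebraMap ℚ Qbar a) (algebraMap ℚ Qbar b)),
      (p : ℤ) • (Point.some _ _ h : (W⁄(AlgebraicClosure ℚ)).Point) ≠ 0)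
    (N : Submodule (ZMod p) (Tors W p)) (hbot : N ≠ ⊥) :
    ¬ ∀ σ : GQ, ∀ x ∈ N, σ • x = x := by
  intro hfix
  obtain ⟨a, b, h, hp0, -⟩ := exists_rat_point_of_fixed N hbot hfix
  exact hNoRat a b h hp0

/-- The frozen S13 conclusion from filtrations at `2` and `p` and the non-existence of rational
`p`-torsion. -/
theorem result_of_filtrations (P : FreyPackage)
    (hcard : Nat.card (Tors P.freyCurve P.p) = P.p ^ 2)
    (h2 : ∀ A : ValuationSubring Qbar, A.LiesOverPrime 2 →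
      ∃ V₀ : AddSubgroup (Tors P.freyCurve P.p),
        (∀ σ ∈ A.inertiaSubgroupIn ℚ, ∀ x, σ • x - x ∈ V₀) ∧
        (∀ σ ∈ A.inertiaSubgroupIn ℚ, ∀ x ∈ V₀, σ • x = x))
    (hp : ∀ A : ValuationSubring Qbar, A.LiesOverPrime P.p →
      ∃ V₀ V₁ : AddSubgroup (Tors P.freyCurve P.p), V₁ ≤ V₀ ∧
        (∀ σ ∈ A.inertiaSubgroupIn ℚ, ∀ x, σ • x - x ∈ V₀) ∧
        (∀ σ ∈ A.inertiaSubgroupIn ℚ, ∀ x ∈ V₀, σ • x - x ∈ V₁) ∧
        ((∃ N : Submodule (ZMod P.p) (Tors P.freyCurve P.p),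
          IsGaloisStable ℚ N ∧ N ≠ ⊥ ∧ N ≠ ⊤) → V₁ ≠ ⊤))
    (hNoRat : ∀ (a b : ℚ)
      (h : (P.freyCurve⁄(AlgebraicClosure ℚ)).Nonsingular (algebraMap ℚ Qbar a)
        (algebraMap ℚ Qbar b)),
      (P.p : ℤ) • (Point.some _ _ h : (P.freyCurve⁄(AlgebraicClosure ℚ)).Point) ≠ 0)
    (hred : ¬ GaloisRepIsIrreducible (K := AlgebraicClosure ℚ) ℚ P.freyCurve P.p) :
    HasGaloisStableCofixedLine (K := AlgebraicClosure ℚ) ℚ P.freyCurve P.p := by
  have : Fact P.p.Prime := ⟨P.pp⟩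
  refine FreyGlue.result_of P hcard ?_ ?_ (fun N _ hbot _ => hR_of_noRat hNoRat N hbot) hred
  · intro N hN hbot htop A hA
    obtain ⟨V₀, hC, hK⟩ := h2 A hA
    intro σ hσ
    exact LineAlgebra.mem_fixer_inf_cofixer_of_unipotent hcard N hN hbot htop σ V₀ (hC σ hσ)
      (hK σ hσ)
  · intro N hN hbot htop A hA
    obtain ⟨V₀, V₁, h10, hC, hK, hE⟩ := hp A hA
    exact le_fixer_or_le_cofixer_of_filtration hcard N hN hbot htop _ V₀ V₁ h10 hC hK
      (hE ⟨N, hN, hbot, htop⟩)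

end Fermat.Agent.S13.RGlue
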